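import Fermat.Agent.RT.Setting.Residual
import Fermat.Agent.RT.Coh.NonEisRes
import Fermat.Agent.RT.Ihara.Base
import Fermat.Agent.LevelRaise.Galois
import Fermat.Prelude.Def_ModularCurve_GenusNumerics

/-!
# Hecke systems congruent to a semistable curve

A family of primes with scalars congruent to the coefficients of the curve outside a finite set is
not Eisenstein and satisfies the hypotheses of level raising.
-/

set_option autoImplicit false

noncomputable section

open WeierstrassCurve IsLocalRing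

namespace FLTAgent.RT

local notation "Γℚ" => AlgebraicClosure ℚ ≃ₐ[ℚ] AlgebraicClosure ℚ

/-- The family `l`, `a` is congruent to the coefficients of `W` outside `S₁`. -/
structure Sys {O : Type} [CommRing O] [IsLocalRing O] (W : WeierstrassCurve ℤ) (p : ℕ)
    (S₁ : Finset ℕ) {ι : Type} (l : ι → ℕ) (a : ι → O) : Prop where
  prime : ∀ i, (l i).Prime
  mem_p : p ∈ S₁
  good : ∀ ℓ : ℕ, ℓ.Prime → ℓ ∉ S₁ → W.IsGoodPrimeFor ℓ
  cov : ∀ ℓ : ℕ, ℓ.Prime → ℓ ∉ S₁ → ∃ i, l i = ℓ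
  res : ∀ i, l i ∉ S₁ → residue O (a i) = residue O (W.apOfModel (l i) : O)

/-- All primes outside `S₁`. -/
abbrev AwayPrimes (S₁ : Finset ℕ) : Type := {ℓ : ℕ // ℓ.Prime ∧ ℓ ∉ S₁}

variable {O : Type} [CommRing O] [IsLocalRing O] {W : WeierstrassCurve ℤ} {p : ℕ}

/-- The coefficients of `W` at all primes outside a finite set containing the bad ones and `p`. -/
theorem sys_awayPrimes {S₁ : Finset ℕ} (hp : p ∈ S₁)
    (hbad : ∀ ℓ : ℕ, ℓ.Prime → ℓ ∉ S₁ → W.IsGoodPrimeFor ℓ) :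
    Sys W p S₁ (fun i : AwayPrimes S₁ => i.1) fun i => (W.apOfModel i.1 : O) where
  prime i := i.2.1
  mem_p := hp
  good := hbad
  cov ℓ hℓ h := ⟨⟨ℓ, hℓ, h⟩, rfl⟩
  res _ _ := rfl

variable {S₁ : Finset ℕ} {ι : Type} {l : ι → ℕ} {a : ι → O}

theorem Sys.ne_p (hs : Sys W p S₁ l a) {i : ι} (hi : l i ∉ S₁) : l i ≠ p :=
  fun h => hi (h ▸ hs.mem_p)

/-- Enlarging the exceptional set. -/
theorem Sys.mono (hs : Sys W p S₁ l a) {S₂ : Finset ℕ} (h : S₁ ⊆ S₂) : Sys W p S₂ l a where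
  prime := hs.prime
  mem_p := h hs.mem_p
  good ℓ hℓ hS := hs.good ℓ hℓ fun h' => hS (h h')
  cov ℓ hℓ hS := hs.cov ℓ hℓ fun h' => hS (h h')
  res i hS := hs.res i fun h' => hS (h h')

variable [Fact p.Prime] (hΔ : W.Δ ≠ 0) (hp : (p : O) ∈ maximalIdeal O)

/-- The traces of the residual representation are the scalars. -/
theorem Sys.hres (hs : Sys W p S₁ l a) {i : ι} (hi : l i ∉ S₁)
    {A : ValuationSubring (AlgebraicClosure ℚ)} (hA : A.LiesOverPrime (l i)) {σ : Γℚ}
    (hσ : A.IsFrobeniusAt σ (l i)) :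
    LinearMap.trace (ResidueField O) _ ((rbar p hΔ hp).ρ σ) = residue O (a i) := by
  rw [trace_rbar_frobenius p hΔ hp (hs.prime i) (hs.good _ (hs.prime i) hi) (hs.ne_p hi) hA hσ,
    hs.res i hi]

include hΔ hp in
/-- A system congruent to an irreducible curve is not Eisenstein. -/
theorem Sys.nonEis (hs : Sys W p S₁ l a) (hp2 : p ≠ 2) (hirr : W.ModRepIsIrreducible p) :
    NonEis l a :=
  nonEis_of_residual hp2 hp (rbar p hΔ hp) (rbar_isAbsolutelyIrreducible p hΔ hp hp2 hirr) a S₁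
    hs.cov fun _ _ hi _ hA _ hσ => hs.hres hΔ hp hi hA hσ

include hp in
omit hΔ in
theorem isUnit_of_resHom {x : O} {z : ZMod p} (hx : residue O x = resHom hp z) (hz : z ≠ 0) :
    IsUnit x := by
  refine (IsLocalRing.residue_ne_zero_iff_isUnit x).mp ?_
  rw [hx]
  exact fun h => hz ((resHom hp).injective (h.trans (map_zero _).symm))

include hΔ hp in
/-- Infinitely many of the primes can raise the level. -/
theorem Sys.exists_raise (hs : Sys W p S₁ l a) (hp2 : p ≠ 2) (hirr : W.ModRepIsIrreducible p)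
    (S : Finset ℕ) : ∃ i, l i ∉ S ∧ IsUnit (a i ^ 2 - ((l i : O) + 1) ^ 2) := by
  obtain ⟨ℓ, hℓ, hℓS, -, -, h⟩ := LevelRaise.exists_prime_sq_ne hΔ p hp2 hirr (S ∪ S₁)
  rw [Finset.mem_union, not_or] at hℓS
  obtain ⟨i, rfl⟩ := hs.cov ℓ hℓ hℓS.2
  refine ⟨i, hℓS.1, isUnit_of_resHom hp (z := (W.apOfModel (l i) : ZMod p) ^ 2 -
    ((l i : ZMod p) + 1) ^ 2) ?_ (sub_ne_zero.mpr h)⟩
  simp [hs.res i hℓS.2]

omit hΔ in
include hp in
theorem isUnit_two (hp2 : p ≠ 2) : IsUnit (2 : O) :=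
  isUnit_of_resHom hp (z := 2) (by simp [map_ofNat]) fun h => by
    have h' : ((2 : ℕ) : ZMod p) = 0 := by exact_mod_cast h
    rw [ZMod.natCast_eq_zero_iff] at h'
    exact hp2 ((Nat.prime_dvd_prime_iff_eq Fact.out Nat.prime_two).mp h')

omit hΔ in
include hp in
theorem isUnit_three (hp3 : p ≠ 3) : IsUnit (3 : O) :=
  isUnit_of_resHom hp (z := 3) (by simp [map_ofNat]) fun h => by
    have h' : ((3 : ℕ) : ZMod p) = 0 := by exact_mod_cast h
    rw [ZMod.natCast_eq_zero_iff] at h'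
    exact hp3 ((Nat.prime_dvd_prime_iff_eq Fact.out Nat.prime_three).mp h')

include hΔ hp in
/-- **The hypotheses of level raising.** -/
theorem Sys.raiseHyp (hs : Sys W p S₁ l a) (hp2 : p ≠ 2) (hirr : W.ModRepIsIrreducible p)
    {N q : ℕ} (hq : ∀ i, l i ≠ q) (h3 : p ≠ 3 ∨ ModularCurve.nuThree N = 0) :
    RaiseHyp N q l a where
  ne := hq
  nonEis := hs.nonEis hΔ hp hp2 hirr
  raise := hs.exists_raise hΔ hp hp2 hirr
  two := isUnit_two hp hp2
  three := h3.imp (isUnit_three hp) id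

/-- A prime `r ≡ 2 (mod 3)` in the level leaves no elliptic points of order three. -/
theorem nuThree_eq_zero_of_dvd {N r : ℕ} (hr : r.Prime) (hr3 : r % 3 = 2) (hrN : r ∣ N) :
    ModularCurve.nuThree N = 0 := by
  have := Fact.mk hr
  unfold ModularCurve.nuThree
  have : IsEmpty {x : ZMod N // x ^ 2 + x + 1 = 0} := ⟨fun ⟨x, hx⟩ => by
    have hy := congrArg (ZMod.castHom hrN (ZMod r)) hx
    rw [map_add, map_add, map_pow, map_one, map_zero] at hy
    generalize ZMod.castHom hrN (ZMod r) x = y at hy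
    have hy0 : y ≠ 0 := fun h => by simp [h] at hy
    have hy3 : y ^ 3 = 1 := by linear_combination (y - 1) * hy
    have hy1 : y ≠ 1 := fun h => by
      rw [h] at hy
      have h' : ((3 : ℕ) : ZMod r) = 0 := by push_cast; linear_combination hy
      rw [ZMod.natCast_eq_zero_iff, Nat.prime_dvd_prime_iff_eq hr Nat.prime_three] at h'
      omega
    have h1 : orderOf y ∣ r - 1 := ZMod.orderOf_dvd_card_sub_one hy0
    rw [orderOf_eq_prime hy3 hy1] at h1
    omega⟩
  exact Nat.card_of_isEmpty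

end FLTAgent.RT
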