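import Fermat.Agent.RT.Setting.Sys
import Fermat.Agent.RT.HeckeRep.CohRep
import Fermat.Agent.RT.HeckeRep.Dropped
import Fermat.Agent.RT.Coh.Theta
import Fermat.Agent.GalRep.Inputs
import Fermat.Agent.GalRep.Specializations
import Fermat.Agent.LevelRaise.EigenClass
import Fermat.Agent.Newform.Occurs

/-!
# Residual modularity and the parts of the cohomology

A curve is residually modular of level `N` exactly when the part of the homomorphisms of level `N`
at its Hecke system does not vanish.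
-/

set_option autoImplicit false

noncomputable section

open WeierstrassCurve IsLocalRing CongruenceSubgroup
open scoped MatrixGroups

namespace FLTAgent.RT

open FLTAgent.GalRep

variable {O : Type} [CommRing O] [IsDomain O] [IsDiscreteValuationRing O]
  [IsAdicComplete (maximalIdeal O) O] [Finite (ResidueField O)] [CharZero O]
  {W : WeierstrassCurve ℤ} {p : ℕ} [Fact p.Prime] (hp : (p : O) ∈ maximalIdeal O)
  {ι : Type} {l : ι → ℕ}

/-- A class vanishing modulo the maximal ideal is a multiple of it. -/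
theorem mem_smul_top_of_redG0 {N : ℕ} [NeZero N] {φ : Coh N trivChar O}
    (h : redG0 O N φ = 0) : φ ∈ maximalIdeal O • (⊤ : Submodule O (Coh N trivChar O)) := by
  obtain ⟨ϖ, hϖ⟩ := IsDiscreteValuationRing.exists_irreducible O
  obtain ⟨ψ, rfl⟩ := exists_eq_smul_of_forall_mem hϖ (redG0_eq_zero_iff.mp h)
  exact Submodule.smul_mem_smul (hϖ.maximalIdeal_eq ▸ Ideal.mem_span_singleton_self ϖ)
    Submodule.mem_top

include hp in
/-- **A residually modular curve has a non-zero part** at the level of its form. -/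
theorem cohPart_ne_bot_of_isResiduallyModularOfLevel {M : ℕ} [NeZero M] (hp2 : p ≠ 2)
    (hres : W.IsResiduallyModularOfLevel p M) (hl : ∀ i, (l i).Prime) (a : ι → O)
    (hi : ∀ i, ¬ l i ∣ M ∧ W.IsGoodPrimeFor (l i) ∧ l i ≠ p ∧
      residue O (a i) = residue O (W.apOfModel (l i) : O)) :
    cohPart trivChar (one_dvd M) hl a ≠ ⊥ := by
  classical
  obtain ⟨f, 𝔪, hf, hmax, hpm, hc⟩ := hres
  obtain ⟨z, hzp, hz0, hzT⟩ := LevelRaise.exists_residual_class hf 𝔪 hmax hpm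
  let φ₀ := (resHom hp).toAddMonoidHom
  have hzk : φ₀.comp z ∈ LevelRaise.parHom (Gamma0 M) (ResidueField O) := fun γ hγ => by
    show φ₀ (z (Additive.ofMul γ)) = 0
    rw [hzp γ hγ, map_zero]
  have hzk0 : φ₀.comp z ≠ 0 := fun h => hz0 <| AddMonoidHom.ext fun γ =>
    (resHom hp).injective ((DFunLike.congr_fun h γ).trans (map_zero _).symm)
  have h2 : (2 : ResidueField O) ≠ 0 := by
    rw [← map_ofNat (residue O) 2, residue_ne_zero_iff_isUnit]
    exact isUnit_two hp hp2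
  obtain ⟨ψ, -, hψ⟩ := LevelRaise.exists_parHom_lift (LevelRaise.neg_one_mem_gamma0 M) h2
    (fun r hr => (mul_eq_zero.mp hr).resolve_left two_ne_zero) (residue O)
    IsLocalRing.residue_surjective hzk
  set φ : Coh M trivChar O := (toG0 M).symm ψ with hφdef
  have hφ : redG0 O M φ = φ₀.comp z := by
    rw [redG0_def, hφdef, AddEquiv.apply_symm_apply]; exact hψ
  intro hbot
  have := moduleFinite_coh (χ := trivChar) O O (one_dvd M)
  have hmem : φ - cohProj trivChar (one_dvd M) hl a φ ∈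
      maximalIdeal O ^ 1 • (⊤ : Submodule O (Coh M trivChar O)) := by
    refine sub_partProj_mem _ a fun i => ⟨1, ?_⟩
    obtain ⟨hiM, hgood, hip, hai⟩ := hi i
    have : NeZero (l i) := ⟨(hl i).ne_zero⟩
    rw [pow_one, pow_one]
    refine mem_smul_top_of_redG0 ?_
    rw [LinearMap.sub_apply, map_sub, redG0_opP (hl i) hiM, LinearMap.smul_apply,
      Module.End.one_apply, redG0_smul, hφ, LevelRaise.map_heckeOp,
      hzT (l i) (W.apOfModel (l i)) (hl i) hiM (hc _ (hl i) hgood hiM hip), sub_eq_zero]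
    refine AddMonoidHom.ext fun γ => ?_
    show resHom hp ((W.apOfModel (l i) : ZMod p) * z γ) = residue O (a i) * resHom hp (z γ)
    rw [map_mul, resHom_intCast, hai]
  have hz : cohProj trivChar (one_dvd M) hl a φ = 0 := by
    have := cohProj_mem (one_dvd M) hl a φ
    rwa [hbot, Submodule.mem_bot] at this
  rw [hz, sub_zero, pow_one] at hmem
  exact hzk0 (hφ ▸ redG0_eq_zero_of_mem hmem)

omit [IsDomain O] [IsDiscreteValuationRing O] [IsAdicComplete (maximalIdeal O) O]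
  [Finite (ResidueField O)] [CharZero O] in
/-- Restriction to a deeper level is injective. -/
theorem resB_injective {M : ℕ} {D : Type*} [CommGroup D] {χ : (ZMod M)ˣ →* D}
    [Fact (Odd (Nat.card D))] [IsAddTorsionFree O] {N N' : ℕ} [NeZero N'] (hMN' : M ∣ N')
    (hN : N ∣ N') : Function.Injective (resB O χ hN : Coh N χ O →ₗ[O] Coh N' χ O) := by
  rw [injective_iff_map_eq_zero]
  intro φ hφ
  refine AddMonoidHom.ext fun γ => ?_
  obtain ⟨γ, rfl⟩ := Additive.ofMul.surjective γ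
  have := finiteIndex_gammaH (χ := χ) hMN'
  obtain ⟨n, hn, -, hmem⟩ := Subgroup.exists_pow_mem_of_index_ne_zero
    (Subgroup.FiniteIndex.index_ne_zero (H := gammaH N' χ)) (γ : SL(2, ℤ))
  have h := DFunLike.congr_fun hφ (Additive.ofMul (⟨_, hmem⟩ : gammaH N' χ))
  rw [resB_apply_apply, AddMonoidHom.zero_apply] at h
  rw [AddMonoidHom.zero_apply]
  refine (smul_eq_zero_iff_right hn.ne').mp ?_
  rw [← map_nsmul, ← ofMul_pow]
  exact h

/-- **The part stays non-zero at deeper levels.** -/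
theorem cohPart_ne_bot_of_dvd {M : ℕ} {D : Type*} [CommGroup D] {χ : (ZMod M)ˣ →* D}
    [Fact (Odd (Nat.card D))] {N N' : ℕ} [NeZero N] [NeZero N'] (hMN : M ∣ N) (hN : N ∣ N')
    (hl : ∀ i, (l i).Prime) (a : ι → O) (hkind : ∀ i, l i ∣ N' → l i ∣ N)
    (h : cohPart χ hMN hl a ≠ ⊥) : cohPart χ (hMN.trans hN) hl a ≠ ⊥ := by
  have : IsAddTorsionFree O := isAddTorsionFree_of_charZero
  obtain ⟨φ, hφ, hφ0⟩ := Submodule.exists_mem_ne_zero_of_ne_bot h
  intro hbot
  have hmem := map_mem_cohPart hMN hl a (hMN.trans hN) (resB O χ hN)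
    (fun i ψ => (resB_opP (χ := χ) hMN hN (hl i) (hkind i) ψ).symm) hφ
  rw [hbot, Submodule.mem_bot] at hmem
  exact hφ0 (resB_injective (hMN.trans hN) hN (hmem.trans (map_zero _).symm))

omit hp in
/-- A point in characteristic `p` of an order lifts to a maximal ideal of the algebraic integers along
a complex embedding. -/
theorem exists_embedding_congr {R : Type} [CommRing R] [IsDomain R] [CharZero R] [Module.Finite ℤ R]
    {K : Type} [CommRing K] [IsDomain K] (p : ℕ) [Fact p.Prime] (f : R →+* K)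
    (hf : f p = 0) :
    ∃ (e : R →+* ℂ) (𝔪 : Ideal (integralClosure ℤ ℂ)), 𝔪.IsMaximal ∧
      (p : integralClosure ℤ ℂ) ∈ 𝔪 ∧ ∀ (x : R) (z : ℤ), f (x - z) = 0 →
        ∃ a : integralClosure ℤ ℂ, (a : ℂ) = e x ∧ a - (z : integralClosure ℤ ℂ) ∈ 𝔪 := by
  have : Algebra.IsIntegral ℤ R := Algebra.IsIntegral.of_finite ℤ _
  have hQ₁ : (RingHom.ker f).IsMaximal := by
    have : (RingHom.ker f).IsPrime := RingHom.ker_isPrime f
    refine Ideal.isMaximal_of_isIntegral_of_isMaximal_comap (R := ℤ) _ ?_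
    have hpmem : (p : ℤ) ∈ (RingHom.ker f).comap (algebraMap ℤ R) := by
      rw [Ideal.mem_comap, RingHom.mem_ker, map_natCast]
      exact hf
    refine Ideal.IsPrime.isMaximal (Ideal.IsPrime.comap _) fun h => ?_
    rw [h, Ideal.mem_bot, Nat.cast_eq_zero] at hpmem
    exact (Fact.out : p.Prime).ne_zero hpmem
  have : Algebra.IsAlgebraic ℤ R := Algebra.IsIntegral.isAlgebraic
  let e : R →ₐ[ℤ] ℂ := IsAlgClosed.lift
  have he : Function.Injective e := by
    refine (RingHom.injective_iff_ker_eq_bot e.toRingHom).mpr ?_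
    refine Ideal.eq_bot_of_comap_eq_bot (R := ℤ) (le_bot_iff.mp fun z hz => ?_)
    rw [Ideal.mem_comap, RingHom.mem_ker] at hz
    simpa using hz
  let e' : R →+* integralClosure ℤ ℂ := e.toRingHom.codRestrict (integralClosure ℤ ℂ)
    fun r => (Algebra.IsIntegral.isIntegral (R := ℤ) r).map e
  have he' : Function.Injective e' := fun x y h => he (congrArg Subtype.val h)
  obtain ⟨𝔪, h𝔪, h𝔪c⟩ : ∃ 𝔪 : Ideal (integralClosure ℤ ℂ), 𝔪.IsMaximal ∧
      𝔪.comap e' = RingHom.ker f := by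
    let := e'.toAlgebra
    have : IsScalarTower ℤ R (integralClosure ℤ ℂ) :=
      IsScalarTower.of_algebraMap_eq' (RingHom.ext_int _ _)
    have : Algebra.IsIntegral R (integralClosure ℤ ℂ) := Algebra.IsIntegral.tower_top ℤ
    exact Ideal.exists_ideal_over_maximal_of_isIntegral _ fun x hx => by
      rw [RingHom.mem_ker, ← map_zero e'] at hx
      rw [he' hx]; exact Ideal.zero_mem _
  refine ⟨e.toRingHom, 𝔪, h𝔪, ?_, fun x z hxz => ⟨e' x, rfl, ?_⟩⟩
  · have hm : (p : R) ∈ RingHom.ker f := hf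
    rw [← h𝔪c, Ideal.mem_comap, map_natCast] at hm
    exact hm
  · rw [← map_intCast e', ← map_sub, ← Ideal.mem_comap, h𝔪c]
    exact hxz

omit [IsAdicComplete (maximalIdeal O) O] [Finite (ResidueField O)] in
include hp in
/-- A homomorphism of an order into a finite free algebra gives a complex point congruent to it
modulo some maximal ideal. -/
theorem exists_point_congr {T : Type} [CommRing T] [Module.Finite ℤ T] {A : Type} [CommRing A]
    [Algebra O A] [Module.Finite O A] [Module.Free O A] [Nontrivial A] (φ : T →+* A) :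
    ∃ (m₀ : Ideal A) (e : T →+* ℂ) (𝔪 : Ideal (integralClosure ℤ ℂ)),
      m₀.IsMaximal ∧ 𝔪.IsMaximal ∧ (p : integralClosure ℤ ℂ) ∈ 𝔪 ∧
      (∀ c ∈ maximalIdeal O, algebraMap O A c ∈ m₀) ∧
      ∀ (x : T) (z : ℤ), φ x - (z : A) ∈ m₀ →
        ∃ a : integralClosure ℤ ℂ, (a : ℂ) = e x ∧ a - (z : integralClosure ℤ ℂ) ∈ 𝔪 := by
  have hint : Algebra.IsIntegral O A := Algebra.IsIntegral.of_finite O A
  obtain ⟨m₀, hm₀⟩ := Ideal.exists_maximal A
  have := hm₀.isPrime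
  have hmax : (m₀.comap (algebraMap O A)).IsMaximal :=
    Ideal.isMaximal_comap_of_isIntegral_of_isMaximal m₀
  have hcomap : m₀.comap (algebraMap O A) = maximalIdeal O := IsLocalRing.eq_maximalIdeal hmax
  have hm₀p : (p : A) ∈ m₀ := by
    rw [← map_natCast (algebraMap O A), ← Ideal.mem_comap, hcomap]
    exact hp
  obtain ⟨P₁, hP₁, hP₁m⟩ := Ideal.exists_minimalPrimes_le (bot_le : (⊥ : Ideal A) ≤ m₀)
  have hP₁p : P₁.IsPrime := hP₁.1.1
  have hP₁O : ∀ c : O, algebraMap O A c ∈ P₁ → c = 0 := by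
    intro c hc
    by_contra h0
    refine Set.disjoint_left.mp (Ideal.disjoint_nonZeroDivisors_of_mem_minimalPrimes hP₁) hc
      (mem_nonZeroDivisors_iff_right.mpr fun x hx => ?_)
    rw [mul_comm, ← Algebra.smul_def] at hx
    exact (smul_eq_zero.mp hx).resolve_left h0
  let P₀ : Ideal T := P₁.comap φ
  have : P₀.IsPrime := Ideal.IsPrime.comap φ
  have hfinR : Module.Finite ℤ (T ⧸ P₀) :=
    Module.Finite.of_surjective (Ideal.Quotient.mk P₀).toIntAlgHom.toLinearMap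
      Ideal.Quotient.mk_surjective
  have hchar : CharZero (T ⧸ P₀) := by
    refine charZero_of_inj_zero fun n hn' => ?_
    rw [← map_natCast (Ideal.Quotient.mk P₀), Ideal.Quotient.eq_zero_iff_mem, Ideal.mem_comap,
      map_natCast, ← map_natCast (algebraMap O A)] at hn'
    exact Nat.cast_eq_zero.mp (hP₁O _ hn')
  let f : T ⧸ P₀ →+* A ⧸ m₀ :=
    Ideal.Quotient.lift P₀ ((Ideal.Quotient.mk m₀).comp φ) fun t ht =>
      Ideal.Quotient.eq_zero_iff_mem.mpr (hP₁m ht)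
  have hfp : f p = 0 := by
    rw [map_natCast, ← map_natCast (Ideal.Quotient.mk m₀), Ideal.Quotient.eq_zero_iff_mem]
    exact hm₀p
  obtain ⟨e, 𝔪, h𝔪, hpm, hmem⟩ := exists_embedding_congr p f hfp
  refine ⟨m₀, e.comp (Ideal.Quotient.mk P₀), 𝔪, hm₀, h𝔪, hpm, fun c hc => ?_, fun x z hxz => ?_⟩
  · rw [← Ideal.mem_comap, hcomap]; exact hc
  refine hmem _ z ?_
  rw [map_sub, map_intCast, ← map_intCast (Ideal.Quotient.mk m₀)]
  show Ideal.Quotient.mk m₀ (φ x) - Ideal.Quotient.mk m₀ _ = 0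
  rw [← map_sub, Ideal.Quotient.eq_zero_iff_mem]
  exact hxz

omit [IsAdicComplete (maximalIdeal O) O] [Finite (ResidueField O)] in
include hp in
/-- A congruence of a Hecke algebra modulo every maximal ideal of a finite free algebra comes from
an eigenform. -/
theorem exists_eigenform_congr {N : ℕ} [NeZero N] {S : Finset ℕ} {A : Type} [CommRing A]
    [Algebra O A] [Module.Finite O A] [Module.Free O A] [Nontrivial A]
    (φ : CuspForm.heckeAlgebra N 2 (↑S : Set ℕ) →+* A) (b : ℕ → O)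
    (h : ∀ (ℓ : ℕ) (hℓ : ℓ.Prime) (hℓN : ¬ ℓ ∣ N) (hℓS : ℓ ∉ (↑S : Set ℕ)) (m : Ideal A),
      m.IsMaximal → φ (CuspForm.heckeAlgebra.T hℓ hℓN hℓS) - algebraMap O A (b ℓ) ∈ m) :
    ∃ (g : CuspForm (Gamma0 N) 2) (𝔪 : Ideal (integralClosure ℤ ℂ)),
      g.IsNormalizedEigenform ∧ 𝔪.IsMaximal ∧ (p : integralClosure ℤ ℂ) ∈ 𝔪 ∧
      ∀ (ℓ : ℕ), ℓ.Prime → ¬ ℓ ∣ N → ℓ ∉ S → ∀ e : ℤ, residue O (b ℓ) = residue O (e : O) →
        ∃ a : integralClosure ℤ ℂ, (a : ℂ) = ModularFormClass.qCoeff g ℓ ∧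
          a - (e : integralClosure ℤ ℂ) ∈ 𝔪 := by
  have := IntegralStructure.moduleFinite_heckeAlgebra (N := N) 2 (↑S : Set ℕ)
  obtain ⟨m₀, e, 𝔪, hm₀, h𝔪, hpm, hO, hmem⟩ := exists_point_congr hp φ
  obtain ⟨g, hg, hgT, -⟩ := FLTAgent.Newform.exists_eigenform_of_partialChar e
  refine ⟨g, 𝔪, hg, h𝔪, hpm, fun ℓ hℓ hℓN hℓS' z hz => ?_⟩
  have hℓS : ℓ ∉ (↑S : Set ℕ) := by simpa using hℓS'
  obtain ⟨a, ha, ham⟩ := hmem (CuspForm.heckeAlgebra.T hℓ hℓN hℓS) z (by
    have hbm : algebraMap O A (b ℓ - z) ∈ m₀ := hO _ (by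
      rw [← residue_eq_zero_iff, map_sub, hz, sub_self])
    have := m₀.add_mem (h ℓ hℓ hℓN hℓS m₀ hm₀) hbm
    rwa [map_sub, sub_add_sub_cancel, map_intCast] at this)
  exact ⟨a, ha.trans (hgT ℓ hℓ hℓN hℓS).symm, ham⟩

include hp in
/-- **A non-zero part comes from a congruent eigenform.** -/
theorem isResiduallyModularOfLevel_of_cohPart_ne_bot (hΔ : W.Δ ≠ 0) (hp2 : p ≠ 2)
    (hirr : W.ModRepIsIrreducible p) {M N N' : ℕ} [NeZero N] [NeZero N'] {D : Type} [CommGroup D]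
    {χ : (ZMod M)ˣ →* D} [Fact (Odd (Nat.card D))] (hMN : M ∣ N) (hsq : Squarefree M)
    (hex : ∀ q : ℕ, q.Prime → q ∣ M → ¬ q ^ 2 ∣ N) (hN' : N' = N * M) {S₁ : Finset ℕ}
    (a : ι → O) (hs : Sys W p S₁ l a) (hl : ∀ i, (l i).Prime)
    (hne : cohPart χ hMN hl a ≠ ⊥) : W.IsResiduallyModularOfLevel p N' := by
  classical
  have : IsAddTorsionFree O := isAddTorsionFree_of_charZero
  have := moduleFinite_coh (χ := χ) O O hMN
  have := moduleFree_coh (χ := χ) (O := O) hMN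
  set P := cohPart χ hMN hl a with hP
  have : IsNoetherian O (Coh N χ O) := isNoetherian_of_isNoetherianRing_of_finite O _
  have : Module.Finite O P := Module.IsNoetherian.finite O P
  have : Module.Free O P := Module.Free.of_basis
    (Submodule.basisOfPid (Module.Free.chooseBasis O (Coh N χ O)) P).2
  have : Nontrivial P := Submodule.nontrivial_iff_ne_bot.mpr hne
  obtain ⟨Θ, hΘ⟩ := exists_theta (χ := χ) hMN hl a (hs.nonEis hΔ hp hp2 hirr) hsq hex hN'
  set S : Finset ℕ := N'.primeFactors ∪ {p} ∪ W.Δ.natAbs.primeFactors with hSdef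
  have hS : ∀ q : ℕ, q.Prime → q ∣ N' → q ∈ S := fun q hq hd => Finset.mem_union_left _
    (Finset.mem_union_left _ (Nat.mem_primeFactors.mpr ⟨hq, hd, NeZero.ne N'⟩))
  have hgood : ∀ ℓ : ℕ, ℓ.Prime → ℓ ∉ S → W.IsGoodPrimeFor ℓ ∧ ℓ ≠ p := by
    intro ℓ hℓ h
    simp only [hSdef, Finset.mem_union, Finset.mem_singleton, not_or] at h
    exact ⟨fun hd => h.2 (Nat.mem_primeFactors.mpr
      ⟨hℓ, Int.natCast_dvd.mp hd, Int.natAbs_ne_zero.mpr hΔ⟩), h.1.2⟩
  let Θ' := Θ.comp (restrictAway hS)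
  let b : ℕ → O := fun ℓ =>
    if h : ∃ i, l i = ℓ ∧ ℓ ∉ S₁ then a h.choose else (W.apOfModel ℓ : O)
  have hb : ∀ ℓ, residue O (b ℓ) = residue O (W.apOfModel ℓ : O) := fun ℓ => by
    by_cases h : ∃ i, l i = ℓ ∧ ℓ ∉ S₁
    · obtain ⟨h1, h2⟩ := h.choose_spec
      simp only [b, dif_pos h]
      rw [hs.res _ (by rw [h1]; exact h2), h1]
    · simp only [b, dif_neg h]
  have hnil : ∀ (ℓ : ℕ) (hℓ : ℓ.Prime) (hℓN : ¬ ℓ ∣ N') (hℓS : ℓ ∉ (↑S : Set ℕ)), ℓ ∉ S₁ →
      IsTopNilpotent (Θ' (CuspForm.heckeAlgebra.T hℓ hℓN hℓS) -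
        algebraMap O (Module.End O P) (b ℓ)) := by
    intro ℓ hℓ hℓN hℓS hℓS₁
    obtain ⟨i, hi⟩ := hs.cov ℓ hℓ hℓS₁
    have h : ∃ i, l i = ℓ ∧ ℓ ∉ S₁ := ⟨i, hi, hℓS₁⟩
    simp only [b, dif_pos h]
    have hcl := h.choose_spec.1
    generalize h.choose = j at hcl
    subst hcl
    exact isTopNilpotent_part (X := fun i => opP O O χ hMN (hl i))
      (fun i j => opP_comm (χ := χ) O O hMN (hl i) (hl j)) a (i := j) (fun v => hΘ _ hℓ hℓN v)
  obtain ⟨Mm⟩ := matModel_of_specializations specializationsExist N' p S hS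
  have hall : ∀ (ℓ : ℕ) (hℓ : ℓ.Prime) (hℓN : ¬ ℓ ∣ N') (hℓS : ℓ ∉ (↑S : Set ℕ)),
      IsTopNilpotent (Θ' (CuspForm.heckeAlgebra.T hℓ hℓN hℓS) -
        algebraMap O (Module.End O P) (b ℓ)) := by
    intro ℓ hℓ hℓN hℓS
    obtain ⟨A, hA, σ, hσ⟩ := CommAlg.exists_liesOverPrime_isFrobeniusAt hℓ
    refine isTopNilpotent_of_dropped Θ' Mm frobeniusDense hp b S₁ hnil (rbar p hΔ hp) ?_ hℓ hℓN
      hℓS (hgood ℓ hℓ (by simpa using hℓS)).2 A hA σ hσ
    intro m hm hmN hmS hmp B hB τ hτ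
    rw [trace_rbar_frobenius p hΔ hp hm (hgood m hm hmS).1 hmp hB hτ, hb]
  have := nontrivial_heckeImage Θ'
  obtain ⟨g, 𝔪, hg, h𝔪, hpm, hcong⟩ := exists_eigenform_congr hp (A := heckeImage Θ') (toImage Θ') b
    fun ℓ hℓ hℓN hℓS m hm =>
      haveI := hm
      mem_of_isTopNilpotent (heckeImage Θ').val Subtype.val_injective (hall ℓ hℓ hℓN hℓS) m
  refine ⟨g, 𝔪, hg, h𝔪, hpm, fun ℓ hℓ hℓgood hℓN hℓp => hcong ℓ hℓ hℓN ?_ _ (hb ℓ)⟩
  simp only [hSdef, Finset.mem_union, Finset.mem_singleton, Nat.mem_primeFactors, not_or]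
  exact ⟨⟨fun h => hℓN h.2.1, hℓp⟩, fun h => hℓgood (Int.natCast_dvd.mpr h.2.1)⟩

end FLTAgent.RT
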