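import Fermat.Agent.RT.Irr.Residual
import Fermat.Agent.Reduction.AtP
import Fermat.Agent.Reduction.GoodPrime
import Mathlib.LinearAlgebra.Charpoly.BaseChange
import Mathlib.LinearAlgebra.Trace

/-!
# The residual representation of a semistable curve over the residue field of the coefficients
-/

set_option autoImplicit false

noncomputable section

open scoped WeierstrassCurve.Affine
open WeierstrassCurve IsLocalRing FLTAgent.LevelDrop Polynomial

namespace FLTAgent.RT

local notation "Γℚ" => AlgebraicClosure ℚ ≃ₐ[ℚ] AlgebraicClosure ℚ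

variable {O : Type} [CommRing O] [IsLocalRing O] {p : ℕ} [Fact p.Prime]

/-- The prime field inside the residue field of a ring of residue characteristic `p`. -/
def resHom (hp : (p : O) ∈ maximalIdeal O) : ZMod p →+* ResidueField O :=
  haveI : CharP (ResidueField O) p := by
    rw [CharP.charP_iff_prime_eq_zero (Fact.out : p.Prime), ← map_natCast (residue O),
      residue_eq_zero_iff]
    exact hp
  ZMod.castHom dvd_rfl _

theorem resHom_intCast (hp : (p : O) ∈ maximalIdeal O) (z : ℤ) :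
    resHom hp (z : ZMod p) = residue O (z : O) := by
  rw [map_intCast, map_intCast]

theorem resHom_natCast (hp : (p : O) ∈ maximalIdeal O) (z : ℕ) :
    resHom hp (z : ZMod p) = residue O (z : O) := by
  rw [map_natCast, map_natCast]

variable {W : WeierstrassCurve ℤ} (hΔ : W.Δ ≠ 0) (p) (hp : (p : O) ∈ maximalIdeal O)

/-- `E[p]` over the residue field of `O`. -/
def rbar : ResidualGaloisRep (ResidueField O) := (torsRep hΔ p).baseChangeAlong (resHom hp)

theorem charpoly_rbar (σ : Γℚ) : LinearMap.charpoly ((rbar p hΔ hp).ρ σ) =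
    (LinearMap.charpoly ((torsRep hΔ p).ρ σ)).map (resHom hp) :=
  letI := (resHom hp).toAlgebra
  LinearMap.charpoly_baseChange ((torsRep hΔ p).ρ σ) (ResidueField O)

theorem det_rbar (σ : Γℚ) : LinearMap.det ((rbar p hΔ hp).ρ σ) =
    resHom hp (LinearMap.det ((torsRep hΔ p).ρ σ)) :=
  letI := (resHom hp).toAlgebra
  LinearMap.det_baseChange ((torsRep hΔ p).ρ σ)

theorem trace_rbar (σ : Γℚ) : LinearMap.trace (ResidueField O) _ ((rbar p hΔ hp).ρ σ) =
    resHom hp (LinearMap.trace (ZMod p) _ ((torsRep hΔ p).ρ σ)) :=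
  letI := (resHom hp).toAlgebra
  LinearMap.trace_baseChange ((torsRep hΔ p).ρ σ) _

theorem rbar_isAbsolutelyIrreducible (hp2 : p ≠ 2) (hirr : W.ModRepIsIrreducible p) :
    (rbar p hΔ hp).IsAbsolutelyIrreducible :=
  RTIrr.isAbsolutelyIrreducible_of_isEquiv hΔ p hp2 hirr (resHom hp) _ ⟨.refl _⟩

theorem rbar_hTW (hsemi : W.IsSemistableModel) (hp2 : p ≠ 2) (hirr : W.ModRepIsIrreducible p)
    (K : Type) [Field K] [Algebra (ResidueField O) K] (G : Subgroup Γℚ) (hG : G.index = 2)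
    (V : Submodule K ((rbar p hΔ hp).baseChange K).V)
    (hV : ∀ σ ∈ G, ∀ x ∈ V, ((rbar p hΔ hp).baseChange K).ρ σ x ∈ V) : V = ⊥ ∨ V = ⊤ :=
  RTIrr.baseChange_eq_bot_or_top_index_two hΔ p hsemi hp2 hirr (resHom hp) _ ⟨.refl _⟩ K G hG
    V hV

theorem rbar_detIsCyclotomic :
    (GaloisRepAdic.ofResidualGaloisRep (rbar p hΔ hp)).DetIsCyclotomic p := by
  have := isElliptic_rat_of_ne_zero hΔ
  have h0 : (p : ResidueField O) = 0 := by
    rw [← map_natCast (residue O), residue_eq_zero_iff]; exact hp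
  refine ⟨by rw [h0]; exact zero_mem _, fun n σ a ha => ?_⟩
  rcases Nat.eq_zero_or_pos n with rfl | hn
  · rw [pow_zero, Nat.cast_one, Ideal.span_singleton_one]; exact Submodule.mem_top
  have h := RTIrr.det_torsMat_of_pow hΔ p σ a fun μ hμ => ha μ (by
    rw [← Nat.sub_add_cancel hn, pow_succ', pow_mul, hμ, one_pow])
  rw [RTIrr.torsMat_eq, LinearMap.det_toMatrix] at h
  change LinearMap.det ((rbar p hΔ hp).ρ σ) - (a : ResidueField O) ∈ _
  rw [det_rbar, h, map_natCast, sub_self]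
  exact zero_mem _

theorem rbar_hsplit
    (hquad : ∀ (φ : ZMod p →+* ResidueField O) (b c : ZMod p), ∃ α β : ResidueField O,
      X ^ 2 + C (φ b) * X + C (φ c) = (X - C α) * (X - C β)) (σ : Γℚ) :
    ∃ α β : ResidueField O,
      LinearMap.charpoly ((rbar p hΔ hp).ρ σ) = (X - C α) * (X - C β) := by
  set f := LinearMap.charpoly ((torsRep hΔ p).ρ σ) with hf
  have hd : f.natDegree = 2 := by
    rw [hf, LinearMap.charpoly_natDegree, (torsRep hΔ p).finrank_eq]
  have hm : f.coeff 2 = 1 := hd ▸ (LinearMap.charpoly_monic _).coeff_natDegree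
  have e : f = X ^ 2 + C (f.coeff 1) * X + C (f.coeff 0) := by
    conv_lhs => rw [eq_quadratic_of_degree_le_two (degree_le_of_natDegree_le hd.le)]
    rw [hm, C_1, one_mul]
  obtain ⟨α, β, h⟩ := hquad (resHom hp) (f.coeff 1) (f.coeff 0)
  refine ⟨α, β, ?_⟩
  rw [charpoly_rbar, ← hf, e]
  simpa using h

theorem charpoly_rbar_frobenius {ℓ : ℕ} (hℓ : ℓ.Prime) (hgood : W.IsGoodPrimeFor ℓ) (hℓp : ℓ ≠ p)
    {A : ValuationSubring (AlgebraicClosure ℚ)} (hA : A.LiesOverPrime ℓ) {σ : Γℚ}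
    (hσ : A.IsFrobeniusAt σ ℓ) :
    LinearMap.charpoly ((rbar p hΔ hp).ρ σ) =
      X ^ 2 - C (residue O (W.apOfModel ℓ : O)) * X + C ((ℓ : ResidueField O)) := by
  rw [charpoly_rbar, charpoly_torsRep_frobenius hΔ p hℓ hgood hℓp A hA σ hσ]
  simp [Polynomial.map_add, Polynomial.map_sub, Polynomial.map_mul]

theorem trace_rbar_frobenius {ℓ : ℕ} (hℓ : ℓ.Prime) (hgood : W.IsGoodPrimeFor ℓ) (hℓp : ℓ ≠ p)
    {A : ValuationSubring (AlgebraicClosure ℚ)} (hA : A.LiesOverPrime ℓ) {σ : Γℚ}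
    (hσ : A.IsFrobeniusAt σ ℓ) :
    LinearMap.trace (ResidueField O) _ ((rbar p hΔ hp).ρ σ) = residue O (W.apOfModel ℓ : O) := by
  have h := congrArg (fun f => f.coeff 1) (charpoly_rbar_frobenius p hΔ hp hℓ hgood hℓp hA hσ)
  rw [LinearMap.trace_eq_matrix_trace _ (Module.finBasisOfFinrankEq _ _ (rbar p hΔ hp).finrank_eq),
    Matrix.trace_eq_neg_charpoly_coeff, LinearMap.charpoly_toMatrix, Fintype.card_fin]
  rw [show 2 - 1 = 1 from rfl, h]
  simp [coeff_X_pow]

theorem isUnramifiedAt_rbar_of_good {ℓ : ℕ} (hℓ : ℓ.Prime) (hgood : W.IsGoodPrimeFor ℓ)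
    (hℓp : ℓ ≠ p) : (rbar p hΔ hp).IsUnramifiedAt ℓ := by
  intro A hA σ hσ
  have hℓ' : ¬ ℓ ∣ p := fun h => hℓp ((Nat.prime_dvd_prime_iff_eq hℓ Fact.out).mp h)
  have h1 : (torsRep hΔ p).ρ σ = 1 := LinearMap.ext fun x =>
    Reduction.galoisRepUnramifiedAt_of_good W hℓ hgood hℓ' A hA σ hσ x
  let := (resHom hp).toAlgebra
  show ((torsRep hΔ p).ρ σ).baseChange (ResidueField O) = 1
  rw [h1, LinearMap.baseChange_one]

/-- `rbar` is unramified at `q` exactly when `E[p]` is. -/
theorem isUnramifiedAt_rbar_iff {q : ℕ} :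
    (rbar p hΔ hp).IsUnramifiedAt q ↔
      WeierstrassCurve.Affine.Point.GaloisRepUnramifiedAt (K := AlgebraicClosure ℚ) ℚ
        (W.map (Int.castRingHom ℚ)) p q := by
  let := (resHom hp).toAlgebra
  constructor
  · intro h A hA σ hσ x
    have h1 : ((torsRep hΔ p).ρ σ).baseChange (ResidueField O) = 1 := h A hA σ hσ
    have h2 : (torsRep hΔ p).ρ σ = 1 := by
      let b := RTIrr.torsBasis hΔ p
      refine (LinearMap.toMatrix b b).injective (Matrix.map_injective (resHom hp).injective ?_)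
      have h3 := congrArg (LinearMap.toMatrix (Algebra.TensorProduct.basis (ResidueField O) b)
        (Algebra.TensorProduct.basis (ResidueField O) b)) h1
      rw [LinearMap.toMatrix_baseChange, LinearMap.toMatrix_one] at h3
      rw [LinearMap.toMatrix_one]
      exact h3.trans (Matrix.map_one _ (map_zero _) (map_one _)).symm
    exact LinearMap.congr_fun h2 x
  · intro h A hA σ hσ
    show ((torsRep hΔ p).ρ σ).baseChange (ResidueField O) = 1
    rw [show (torsRep hΔ p).ρ σ = 1 from LinearMap.ext fun x => h A hA σ hσ x,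
      LinearMap.baseChange_one]

open scoped Classical

/-- `p` and the primes where `E[p]` ramifies. -/
def minSet : Finset ℕ :=
  insert p (W.Δ.natAbs.primeFactors.filter fun q => ¬ (rbar p hΔ hp).IsUnramifiedAt q)

theorem mem_minSet_self : p ∈ minSet p hΔ hp := Finset.mem_insert_self _ _

theorem prime_of_mem_minSet : ∀ q ∈ minSet p hΔ hp, q.Prime := by
  intro q hq
  rcases Finset.mem_insert.mp hq with rfl | hq
  · exact Fact.out
  · exact Nat.prime_of_mem_primeFactors (Finset.mem_filter.mp hq).1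

theorem mem_minSet_iff {q : ℕ} (hq : q.Prime) (hqp : q ≠ p) :
    q ∈ minSet p hΔ hp ↔ ¬ (rbar p hΔ hp).IsUnramifiedAt q := by

  simp only [minSet, Finset.mem_insert, hqp, false_or, Finset.mem_filter]
  refine ⟨And.right, fun h => ⟨Nat.mem_primeFactors.mpr ⟨hq, ?_, Int.natAbs_ne_zero.mpr hΔ⟩, h⟩⟩
  by_contra hd
  exact h (isUnramifiedAt_rbar_of_good p hΔ hp hq (fun h' => hd (Int.natCast_dvd.mp h')) hqp)

theorem dvd_Δ_of_mem_minSet {q : ℕ} (h : q ∈ minSet p hΔ hp) : q = p ∨ (q : ℤ) ∣ W.Δ := by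
  rcases Finset.mem_insert.mp h with h | h
  · exact Or.inl h
  · exact Or.inr (Int.natCast_dvd.mpr (Nat.dvd_of_mem_primeFactors (Finset.mem_filter.mp h).1))

end FLTAgent.RT
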