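import Fermat.Agent.LevelSq.Eigen
import Fermat.Agent.LevelDrop.Core
import Fermat.Agent.GalRep.Inputs
import Fermat.Agent.GalRep.Specializations

/-!
# Modularity from almost all coefficients

An eigenform with the coefficients of a curve at almost all primes has them at every good prime
outside its level.
-/

set_option autoImplicit false

noncomputable section

open WeierstrassCurve Polynomial FLTAgent.LevelDrop

namespace FLTAgent.RT

/-- **Agreement at almost all primes gives modularity of that level.** -/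
theorem isModularModelOfLevel_of_almost_all {W : WeierstrassCurve ℤ} (hΔ : W.Δ ≠ 0) {N : ℕ}
    [NeZero N] {g : CuspForm (CongruenceSubgroup.Gamma0 N) 2} (hg : g.IsNormalizedEigenform)
    (T : Finset ℕ)
    (h : ∀ ℓ : ℕ, ℓ.Prime → ¬ ℓ ∣ N → ℓ ∉ T →
      ModularFormClass.qCoeff g ℓ = (W.apOfModel ℓ : ℂ)) :
    W.IsModularModelOfLevel N := by
  classical
  refine ⟨g, hg, fun ℓ hℓ hgood hℓN => ?_⟩
  obtain ⟨lam, hlamP, hne⟩ : ∃ lam : ℕ, lam.Prime ∧ ℓ ≠ lam := by
    rcases eq_or_ne ℓ 2 with h | h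
    · exact ⟨3, Nat.prime_three, by omega⟩
    · exact ⟨2, Nat.prime_two, h⟩
  have : Fact lam.Prime := ⟨hlamP⟩
  set S : Finset ℕ :=
    (insert lam (T ∪ N.primeFactors ∪ W.Δ.natAbs.primeFactors)).erase ℓ with hS
  have hlamS : lam ∈ S := by simp [hS, Ne.symm hne]
  have hNS : ∀ r : ℕ, r.Prime → r ∣ N → r ∈ S := fun r hr hrN => by
    simp only [hS, Finset.mem_erase, Finset.mem_insert, Finset.mem_union, Nat.mem_primeFactors]
    exact ⟨fun e => hℓN (e ▸ hrN), Or.inr (Or.inl (Or.inr ⟨hr, hrN, NeZero.ne N⟩))⟩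
  have hℓS : ℓ ∉ (↑S : Set ℕ) := by simp [hS]
  obtain ⟨chig, O', _, _, _, _, _, _, iota, hlam, hiota, hchig⟩ := exists_coefficient_ring hg S lam
  obtain ⟨Mm⟩ := GalRep.matModel_of_specializations GalRep.specializationsExist N lam S hNS
  obtain ⟨ρ, hρ⟩ := LevelSq.exists_galoisRep_same Mm GalRep.frobeniusDense hlamS O' hlam
    (iota.comp chig.rangeRestrict)
  obtain ⟨ψ, hψ⟩ := exists_padicBase lam O' hlam
  obtain ⟨A, σ, hA, hσ⟩ := Frobenius.exists_liesOverPrime_isFrobeniusAt hℓ
  have key := charpoly_eq_tate hΔ GalRep.frobeniusDense lam hψ ρ (insert ℓ S)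
    (Finset.mem_insert_of_mem hlamS) (fun r hr hrT hd => hrT (by
      simp only [hS, Finset.mem_insert, Finset.mem_erase, Finset.mem_union, Nat.mem_primeFactors]
      by_cases he : r = ℓ
      · exact Or.inl he
      · exact Or.inr ⟨he, Or.inr (Or.inr
          ⟨hr, Int.natCast_dvd.mp hd, Int.natAbs_ne_zero.mpr hΔ⟩)⟩))
    (fun r hr hrT P hP τ hτ => by
      have hrℓ : r ≠ ℓ := fun e => hrT (e ▸ Finset.mem_insert_self _ _)
      have hrS : r ∉ (↑S : Set ℕ) := fun e => hrT (Finset.mem_insert_of_mem e)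
      have hrN : ¬ r ∣ N := fun e => hrS (hNS r hr e)
      have hrTT : r ∉ T := fun e => hrS (by simp [hS, hrℓ, e])
      have e : chig (CuspForm.heckeAlgebra.T hr hrN hrS) = ((W.apOfModel r : ℤ) : ℂ) := by
        rw [hchig, h r hr hrN hrTT]
      rw [hρ r hr hrN hrS P hP τ hτ, chig_value chig iota e]) σ
  rw [hρ ℓ hℓ hℓN hℓS A hA σ hσ, Tate.charpoly_frobenius hΔ lam hℓ hgood hne A hA σ hσ] at key
  have e := congrArg (fun f => f.coeff 1) key
  simp only [coeff_map, X_sq_coeff_one] at e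
  simp only [map_neg, neg_inj, map_intCast] at e
  rw [RingHom.comp_apply, ← map_intCast iota] at e
  have e' := congrArg Subtype.val (hiota e)
  rw [RingHom.coe_rangeRestrict, hchig] at e'
  rw [e']
  simp

end FLTAgent.RT
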