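import Fermat.Agent.LevelDrop.Embed
import Mathlib.RingTheory.AdjoinRoot
import Mathlib.RingTheory.Polynomial.Cyclotomic.Roots
import Mathlib.FieldTheory.IsAlgClosed.AlgebraicClosure
import Mathlib.Algebra.CharP.Lemmas

/-!
# Coefficient rings for the residual setting

For every prime `p` there is a complete discrete valuation ring of residue characteristic `p` with
a primitive `p`-th root of unity over whose residue field all quadratics of `ZMod p` split.
-/

set_option autoImplicit false

noncomputable section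

open Polynomial IsLocalRing

namespace FLTAgent.RT

/-- A quadratic over the prime field splits in a field with a primitive `(p²-1)`-st root of
unity. -/
theorem exists_factor_quadratic {p : ℕ} [hp : Fact p.Prime] {k : Type*} [Field k]
    (φ : ZMod p →+* k) {ζ : k} (hζ : IsPrimitiveRoot ζ (p ^ 2 - 1)) (b c : ZMod p) :
    ∃ α β : k, X ^ 2 + C (φ b) * X + C (φ c) = (X - C α) * (X - C β) := by
  let K := AlgebraicClosure k
  let g : k →+* K := algebraMap k K
  have hchar : CharP K p := charP_of_injective_ringHom (g.comp φ).injective p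
  have hfix : ∀ x : ZMod p, g (φ x) ^ p = g (φ x) := fun x => by
    rw [← map_pow, ← map_pow, ZMod.pow_card]
  have hd : (X ^ 2 + C (g (φ b)) * X + C (g (φ c))).degree = 2 := by compute_degree!
  obtain ⟨α, hα⟩ := IsAlgClosed.exists_root (X ^ 2 + C (g (φ b)) * X + C (g (φ c)))
    (by rw [hd]; decide)
  have hα' : α ^ 2 + g (φ b) * α + g (φ c) = 0 := by simpa [IsRoot] using hα
  have hαp : (α ^ p) ^ 2 + g (φ b) * α ^ p + g (φ c) = 0 := by
    have h := congrArg (· ^ p) hα'
    simp only [add_pow_char, mul_pow, hfix, zero_pow hp.out.ne_zero] at h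
    rw [← pow_mul, mul_comm, pow_mul]
    exact h
  have h1 : (α ^ p - α) * (α ^ p + α + g (φ b)) = 0 := by linear_combination hαp - hα'
  have h2 : (α ^ p) ^ p = α := by
    rcases mul_eq_zero.mp h1 with h | h
    · rw [sub_eq_zero.mp h, sub_eq_zero.mp h]
    · have e : α ^ p = -α + -g (φ b) := by linear_combination h
      calc (α ^ p) ^ p = (-α) ^ p + (-g (φ b)) ^ p := by rw [e, add_pow_char]
        _ = -α ^ p + -g (φ b) := by
          rw [← map_neg g, ← map_neg φ, hfix, map_neg, map_neg, ← zero_sub α, sub_pow_char,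
            zero_pow hp.out.ne_zero, zero_sub]
        _ = α := by rw [e]; ring
  obtain ⟨a, rfl⟩ : ∃ a : k, g a = α := by
    rcases eq_or_ne α 0 with rfl | h0
    · exact ⟨0, map_zero g⟩
    have hn : α ^ (p ^ 2 - 1) = 1 := by
      refine mul_right_cancel₀ h0 ?_
      rw [one_mul, ← pow_succ, Nat.sub_add_cancel (Nat.one_le_pow _ _ hp.out.pos), sq, pow_mul, h2]
    have hpos : p ^ 2 - 1 ≠ 0 := by have := hp.out.two_le; have : 4 ≤ p ^ 2 := by nlinarith
                                    omega
    have := NeZero.mk hpos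
    obtain ⟨i, -, hi⟩ := (hζ.map_of_injective g.injective).eq_pow_of_pow_eq_one hn
    exact ⟨ζ ^ i, by rw [map_pow, hi]⟩
  refine ⟨a, -(φ b) - a, ?_⟩
  have ha : a ^ 2 + φ b * a + φ c = 0 := g.injective (by simpa using hα')
  rw [show φ c = a * (-(φ b) - a) by linear_combination ha]
  simp only [map_sub, map_neg, map_mul]
  ring

/-- **Coefficient rings exist.** -/
theorem exists_coeff (p : ℕ) [hp : Fact p.Prime] :
    ∃ (O : Type) (_ : CommRing O) (_ : IsDomain O) (_ : IsDiscreteValuationRing O)
      (_ : IsAdicComplete (maximalIdeal O) O) (_ : Finite (ResidueField O)) (_ : CharZero O),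
      (p : O) ∈ maximalIdeal O ∧ (∃ z : O, IsPrimitiveRoot z p) ∧
      ∀ (φ : ZMod p →+* ResidueField O) (b c : ZMod p), ∃ α β : ResidueField O,
        X ^ 2 + C (φ b) * X + C (φ c) = (X - C α) * (X - C β) := by
  set n := p ^ 2 - 1 with hn
  have h2 := hp.out.two_le
  have hn0 : 0 < n := by have : 4 ≤ p ^ 2 := by nlinarith
                         omega
  have hm : 0 < p * n := Nat.mul_pos hp.out.pos hn0
  let R := AdjoinRoot (cyclotomic (p * n) ℤ)
  have : IsDomain R := AdjoinRoot.isDomain_of_prime (cyclotomic.irreducible hm).prime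
  have : CharZero R := charZero_of_injective_algebraMap
    (AdjoinRoot.of.injective_of_degree_ne_zero (degree_cyclotomic_pos (p * n) ℤ hm).ne')
  have : Module.Finite ℤ R := (cyclotomic.monic (p * n) ℤ).finite_adjoinRoot
  have hz : IsPrimitiveRoot (AdjoinRoot.root (cyclotomic (p * n) ℤ)) (p * n) := by
    have : NeZero ((p * n : ℕ) : R) := ⟨Nat.cast_ne_zero.2 hm.ne'⟩
    rw [← isRoot_cyclotomic_iff, ← map_cyclotomic (p * n) (AdjoinRoot.of (cyclotomic (p * n) ℤ))]
    exact AdjoinRoot.isRoot_root _
  obtain ⟨O, _, _, _, _, _, _, hpO, ι, hι⟩ := LevelDrop.exists_dvr_embedding R p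
  have hzO := hz.map_of_injective hι
  refine ⟨O, inferInstance, inferInstance, inferInstance, inferInstance, inferInstance,
    inferInstance, hpO, ⟨_, hzO.pow hm (mul_comm p n)⟩, fun φ b c => ?_⟩
  have hw := hzO.pow hm rfl
  have hchar : CharP (ResidueField O) p := charP_of_injective_ringHom φ.injective p
  have : NeZero ((n : ℕ) : ResidueField O) := ⟨fun h => by
    rw [CharP.cast_eq_zero_iff _ p] at h
    have h' : p ∣ 1 := by
      rw [show 1 = p ^ 2 - n by omega]
      exact Nat.dvd_sub (dvd_pow_self p two_ne_zero) h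
    exact hp.out.one_lt.ne' (Nat.dvd_one.mp h')⟩
  have hw' : (cyclotomic n (ResidueField O)).IsRoot (residue O (ι (AdjoinRoot.root (cyclotomic (p * n) ℤ)) ^ p)) := by
    rw [← map_cyclotomic n (residue O)]
    exact (hw.isRoot_cyclotomic hn0).map
  exact exists_factor_quadratic φ (isRoot_cyclotomic_iff.mp hw') b c

end FLTAgent.RT
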