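import Fermat.Agent.RT.Gen.LocalCoord
import Fermat.Agent.RT.LocalModel
import Fermat.Agent.RT.Setting.Sys

/-!
# Normal forms of the residual Frobenius with a prescribed trace

A residual trace with square `4 q` lifts exactly; a residual trace `± (1 + q)` makes the sign
compatible with the normal form.
-/

set_option autoImplicit false

noncomputable section

open IsLocalRing Matrix FLTAgent.Deformation

namespace FLTAgent.RT

variable {O : Type} [CommRing O] [IsLocalRing O]

/-- The trace of a normal form. -/
theorem trace_baseMat_of_isBaseAt {D : LocalDatum O} {X : Mat (ResidueField O)}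
    (h : Gen.IsBaseAt D X) : X.trace = (D.baseMat (ResidueField O)).trace := by
  obtain ⟨P, hP⟩ := h
  rw [show X = (P : Mat (ResidueField O)) * D.baseMat (ResidueField O) * (↑P⁻¹ : Mat _) by
    rw [← hP, mul_assoc, Units.mul_inv, mul_one], Matrix.trace_units_conj]

/-- **A sign with the residual trace `± (1 + q)` fits the normal form.** -/
theorem signOK_of_trace (h2 : IsUnit (2 : O)) {D : LocalDatum O} {X : Mat (ResidueField O)}
    (h : Gen.IsBaseAt D X) {z : O} (hz : z * z = 1)
    (htr : X.trace = residue O (z * ((D.q : O) + 1))) : D.SignOK z := by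
  have e := trace_baseMat_of_isBaseAt h
  rw [htr] at e
  refine ⟨hz, ?_⟩
  rcases hb : D.base with φ | T
  · show z * D.q - φ ∈ maximalIdeal O ∧ z - φ ∈ maximalIdeal O
    have e' : residue O z * ((D.q : ResidueField O) + 1) = residue O φ + residue O φ := by
      simpa [LocalDatum.baseMat, hb, Matrix.trace_fin_two] using e
    have hφ : residue O φ * residue O φ = (D.q : ResidueField O) := by
      rw [← map_mul, D.scalar_sq φ hb, map_natCast]
    have hzz : residue O z * residue O z = 1 := by rw [← map_mul, hz, map_one]
    have hq : (D.q : ResidueField O) = 1 := by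
      have : ((D.q : ResidueField O) - 1) * ((D.q : ResidueField O) - 1) = 0 := by
        linear_combination (residue O z * ((D.q : ResidueField O) + 1) +
          (residue O φ + residue O φ)) * e' - ((D.q : ResidueField O) + 1) ^ 2 * hzz + 4 * hφ
      exact sub_eq_zero.mp (mul_self_eq_zero.mp this)
    have h2' : (2 : ResidueField O) ≠ 0 := by
      rw [← map_ofNat (residue O) 2, residue_ne_zero_iff_isUnit]; exact h2
    have hzφ : residue O z = residue O φ := mul_left_cancel₀ h2' (by
      rw [hq] at e'; linear_combination e')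
    rw [← residue_eq_zero_iff, ← residue_eq_zero_iff, map_sub, map_sub, map_mul, map_natCast, hq,
      mul_one, hzφ, sub_self]
    exact ⟨rfl, rfl⟩
  · show z * (1 + D.q) - T ∈ maximalIdeal O
    have e' : residue O (z * ((D.q : O) + 1)) = residue O T := by
      simpa [LocalDatum.baseMat, hb, Matrix.trace_fin_two] using e
    rw [← residue_eq_zero_iff, map_sub, ← e', add_comm (D.q : O), sub_self]

/-- **A residual trace with square `4 q` has a normal form whose trace has square `4 q`.** -/
theorem exists_localDatum_sq [IsAdicComplete (maximalIdeal O) O] {p q : ℕ} (hp : p.Prime)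
    (hp2 : p ≠ 2) (hpO : (p : O) ∈ maximalIdeal O) (hq : q.Prime) (hqp : q ≠ p)
    (X : Mat (ResidueField O)) (hX : X.det = (q : ResidueField O))
    (htr : X.trace * X.trace = 4 * (q : ResidueField O)) :
    ∃ D : LocalDatum O, D.q = q ∧ Gen.IsBaseAt D X ∧
      ∀ T, D.base = LocalBase.companion T → T * T = 4 * (q : O) := by
  obtain ⟨D, hDq, hD⟩ := Gen.exists_localDatum hp hp2 hpO hq hqp X hX
  rcases hb : D.base with φ | T
  · exact ⟨D, hDq, hD, fun T hT => by rw [hb] at hT; cases hT⟩
  have hu2 : IsUnit (2 : O) := by
    simpa using Gen.isUnit_natCast_of_ne hp Nat.prime_two (Ne.symm hp2) hpO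
  have hTX : residue O T = X.trace := by
    rw [trace_baseMat_of_isBaseAt hD]
    simp [LocalDatum.baseMat, hb, Matrix.trace_fin_two]
  have hT0 : residue O T ≠ 0 := fun h => by
    rw [← hTX, h, mul_zero, eq_comm, mul_eq_zero] at htr
    rcases htr with h4 | hq0
    · refine (residue_ne_zero_iff_isUnit (4 : O)).mpr ?_ (by rw [map_ofNat]; exact h4)
      rw [show (4 : O) = 2 * 2 by norm_num]; exact hu2.mul hu2
    · rw [← map_natCast (residue O), residue_eq_zero_iff] at hq0
      exact (IsLocalRing.mem_maximalIdeal _).mp hq0 (Gen.isUnit_natCast_of_ne hp hq hqp hpO)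
  obtain ⟨c, hc, hcr⟩ : ∃ c : O, 4 * (q : O) = c ∧ residue O c = residue O T * residue O T :=
    ⟨_, rfl, by rw [map_mul, map_natCast, map_ofNat, hTX, htr]⟩
  obtain ⟨T', hT', hTT⟩ := HenselianRing.is_henselian (I := maximalIdeal O)
    (Polynomial.X ^ 2 - Polynomial.C c) (Polynomial.monic_X_pow_sub_C _ two_ne_zero) T
    (by
      rw [← residue_eq_zero_iff]
      simp [sq, hcr])
    (by
      refine isUnit_iff_ne_zero (G₀ := ResidueField O).mpr ?_
      show residue O _ ≠ 0
      simp [hT0, one_add_one_eq_two, hu2])
  have hres : residue O T' = residue O T := by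
    rw [← sub_eq_zero, ← map_sub, residue_eq_zero_iff]; exact hTT
  refine ⟨⟨D.q, .companion T', D.isUnit_q, fun φ h => nomatch h⟩, hDq, ?_, fun T'' hT'' => ?_⟩
  · have hbase : (⟨D.q, .companion T', D.isUnit_q, fun φ h => nomatch h⟩ : LocalDatum O).baseMat
        (ResidueField O) = D.baseMat (ResidueField O) := by
      simp [LocalDatum.baseMat, hb, hres]
    obtain ⟨P, hP⟩ := hD
    exact ⟨P, by rw [hbase]; exact hP⟩
  · obtain rfl : T' = T'' := by simpa using hT''
    simpa [Polynomial.IsRoot, sub_eq_zero, sq, hc] using hT'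

end FLTAgent.RT
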